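/-
S44, block X, sub-block COVER, node FIELD, leaf F3 (owner helper244):
`F̄_Y = FN L [W]` with power basis `1, W, …, W ^ (p - 1)`.
-/
import Mathlib
import Fermat.Agent.S44.X.Cover.Defs

set_option autoImplicit false

noncomputable section

namespace Fermat.Agent.S44.X.Cover

open ModularCurve AlgebraicCurve Fermat.Agent.S24 Fermat.Agent.GAL
open Fermat.Agent.BAD.Bridge Polynomial

variable {I : Subgroup S44.GQ} {p L : ℕ} [NeZero L] {U : FN L} {W : LaurentSeries Kbar}

private theorem basis_coe_Wel (L : ℕ) (W : LaurentSeries Kbar) :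
    ((Wel L W : FYb L W) : LaurentSeries Kbar) = W := rfl

/-- abstract form: `k(F₁, w)` is generated by `w` over `F₁`. -/
private theorem basis_abs {k E : Type*} [Field k] [Field E] [Algebra k E]
    (F₁ F₂ : IntermediateField k E) (w : E)
    (hF₂ : F₂ = IntermediateField.adjoin k ((F₁ : Set E) ∪ {w}))
    [Algebra F₁ F₂] (hcoe : ∀ z : F₁, ((algebraMap F₁ F₂ z : F₂) : E) = z) (hw : w ∈ F₂) :
    IntermediateField.adjoin F₁ {(⟨w, hw⟩ : F₂)} = ⊤ := by
  rw [eq_top_iff]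
  rintro ⟨z, hz⟩ -
  have key : ∀ x ∈ IntermediateField.adjoin k ((F₁ : Set E) ∪ {w}),
      ∃ hx : x ∈ F₂, (⟨x, hx⟩ : F₂) ∈ IntermediateField.adjoin F₁ {(⟨w, hw⟩ : F₂)} := by
    intro x hx
    induction hx using IntermediateField.adjoin_induction with
    | mem x hx =>
      rcases hx with hx | hx
      · have h1 : ((algebraMap F₁ F₂ ⟨x, hx⟩ : F₂) : E) = x := hcoe ⟨x, hx⟩
        refine ⟨h1 ▸ (algebraMap F₁ F₂ ⟨x, hx⟩).2, ?_⟩
        have h2 : (⟨x, h1 ▸ (algebraMap F₁ F₂ ⟨x, hx⟩).2⟩ : F₂) = algebraMap F₁ F₂ ⟨x, hx⟩ :=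
          Subtype.ext h1.symm
        rw [h2]
        exact IntermediateField.algebraMap_mem _ _
      · have hx' : x = w := hx
        subst hx'
        exact ⟨hw, IntermediateField.mem_adjoin_simple_self F₁ _⟩
    | algebraMap c =>
      have h1 : ((algebraMap F₁ F₂ (algebraMap k F₁ c) : F₂) : E) = algebraMap k E c :=
        hcoe (algebraMap k F₁ c)
      refine ⟨h1 ▸ (algebraMap F₁ F₂ (algebraMap k F₁ c)).2, ?_⟩
      have h2 : (⟨algebraMap k E c, h1 ▸ (algebraMap F₁ F₂ (algebraMap k F₁ c)).2⟩ : F₂) =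
          algebraMap F₁ F₂ (algebraMap k F₁ c) := Subtype.ext h1.symm
      rw [h2]
      exact IntermediateField.algebraMap_mem _ _
    | add x y _ _ h1 h2 =>
      obtain ⟨hx, h1⟩ := h1
      obtain ⟨hy, h2⟩ := h2
      exact ⟨add_mem hx hy, add_mem h1 h2⟩
    | inv x _ h1 =>
      obtain ⟨hx, h1⟩ := h1
      exact ⟨inv_mem hx, inv_mem h1⟩
    | mul x y _ _ h1 h2 =>
      obtain ⟨hx, h1⟩ := h1
      obtain ⟨hy, h2⟩ := h2
      exact ⟨mul_mem hx hy, mul_mem h1 h2⟩
  obtain ⟨_, h⟩ := key z (hF₂ ▸ hz)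
  exact h

/-- `F̄_Y` is generated by `W` over `FN L`. -/
theorem basis_adjoin_eq_top (L : ℕ) (W : LaurentSeries Kbar) :
    IntermediateField.adjoin (FN L) {Wel L W} = (⊤ : IntermediateField (FN L) (FYb L W)) :=
  basis_abs (modularFunctionFieldBar L) (FYb L W) W rfl (coe_algebraMap_FYb L W) (W_mem_FYb L W)

/-- F3 (`Field/Basis.lean`) -/
theorem exists_powerBasis (hp : p.Prime) (R : RootData I p L U W) :
    ∃ pb : PowerBasis (FN L) (FYb L W), pb.gen = Wel L W ∧ pb.dim = p ∧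
      minpoly (FN L) (Wel L W) = X ^ p - C U := by
  have hirr : Irreducible (X ^ p - C U : (FN L)[X]) :=
    X_pow_sub_C_irreducible_of_prime hp (fun b hb => R.notpow ⟨b, hb.symm⟩)
  have hroot : aeval (Wel L W) (X ^ p - C U : (FN L)[X]) = 0 := by
    rw [map_sub, map_pow, aeval_X, aeval_C, sub_eq_zero]
    apply Subtype.ext
    rw [coe_algebraMap_FYb, SubmonoidClass.coe_pow, basis_coe_Wel, R.pow]
  have hmonic : (X ^ p - C U : (FN L)[X]).Monic := monic_X_pow_sub_C U hp.ne_zero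
  have hmin : minpoly (FN L) (Wel L W) = X ^ p - C U :=
    (minpoly.eq_of_irreducible_of_monic hirr hroot hmonic).symm
  have hint : IsIntegral (FN L) (Wel L W) := ⟨_, hmonic, hroot⟩
  have htop : Algebra.adjoin (FN L) {Wel L W} = ⊤ := by
    rw [← IntermediateField.adjoin_simple_toSubalgebra_of_isAlgebraic hint.isAlgebraic,
      basis_adjoin_eq_top, IntermediateField.top_toSubalgebra]
  refine ⟨PowerBasis.ofAdjoinEqTop hint htop, PowerBasis.ofAdjoinEqTop_gen hint htop, ?_, hmin⟩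
  rw [PowerBasis.ofAdjoinEqTop_dim, hmin, natDegree_X_pow_sub_C]

end Fermat.Agent.S44.X.Cover

end
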