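/-
S44, block X, sub-block COVER, node FIELD, leaf F5 (architect helper194, proof helper276).
The deck transformation `γ : W ↦ ζ W` commutes with the coefficientwise action of `I`.
This is `Y3.galComm` (helper44 / helper273) in the form of `NodeField`.
-/
import Fermat.Agent.S44.X.Cover.Y3.Comm

set_option autoImplicit false

noncomputable section

namespace Fermat.Agent.S44.X.Cover

open ModularCurve AlgebraicCurve Fermat.Agent.S24 Fermat.Agent.GAL
open Fermat.Agent.BAD.Bridge Polynomial

variable {I : Subgroup S44.GQ} {p L : ℕ} [NeZero L] {U : FN L} {W : LaurentSeries Kbar}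

/-- F5 (`Field/Comm.lean`) -/
theorem gamma_comm (hp : p.Prime) (R : RootData I p L U W) {ζ : Kbar} (hζ : ζ ^ p = 1)
    (γ : FYb L W ≃ₐ[FN L] FYb L W)
    (hγ : γ (Wel L W) = algebraMap Kbar (FYb L W) ζ * Wel L W) {τ : S44.GQ} (hτ : τ ∈ I)
    (z z' : FYb L W) (h : (z' : LaurentSeries Kbar) = gS τ z) :
    ((γ z' : FYb L W) : LaurentSeries Kbar) = gS τ (γ z : FYb L W) := by
  obtain ⟨y, hy1, hy2⟩ := Y3.galComm hp.pos R hζ γ hγ τ hτ z
  have hzy : z' = y := Subtype.ext (h.trans hy1.symm)
  rw [hzy]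
  exact hy2

end Fermat.Agent.S44.X.Cover

end
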