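/-
S44, block X, sub-block COVER, node FIELD, leaf F1 (task 3239): every `τ` acts on `μ_p` by a power.
-/
import Fermat.Agent.S44.X.Cover.Nodes

set_option autoImplicit false

noncomputable section

namespace Fermat.Agent.S44.X.Cover

open ModularCurve AlgebraicCurve Fermat.Agent.S24 Fermat.Agent.GAL

variable {p : ℕ}

/-- F1 (`Field/Cyc.lean`) -/
theorem exists_actsBy (hp : p.Prime) (τ : S44.GQ) : ∃ m : ℕ, ActsBy p τ m := by
  haveI : NeZero p := ⟨hp.ne_zero⟩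
  haveI : NeZero (p : Kbar) := ⟨by exact_mod_cast hp.ne_zero⟩
  obtain ⟨z0, hz0⟩ := HasEnoughRootsOfUnity.exists_primitiveRoot Kbar p
  have h1 : (τ z0) ^ p = 1 := by rw [← map_pow, hz0.pow_eq_one, map_one]
  obtain ⟨m, -, hm⟩ := hz0.eq_pow_of_pow_eq_one h1
  refine ⟨m, fun ζ hζ => ?_⟩
  obtain ⟨k, -, rfl⟩ := hz0.eq_pow_of_pow_eq_one hζ
  rw [map_pow, ← hm, ← pow_mul, ← pow_mul, mul_comm]

end Fermat.Agent.S44.X.Cover

end
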