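/-
S44, block X, sub-block COVER, node FIELD, leaf F4 (helper229): the deck transformation
`W ↦ ζ W`, abstract form (Mathlib only) and the form over `FN L` with the power basis of leaf F3
as a hypothesis.
-/
import Fermat.Agent.S44.X.Cover.Defs

set_option autoImplicit false

noncomputable section

namespace Fermat.Agent.S44.X.Cover

open ModularCurve AlgebraicCurve Fermat.Agent.S24 Fermat.Agent.GAL
open Fermat.Agent.BAD.Bridge Polynomial

/-- Abstract Kummer theory: if `E = F[w]` has the power basis `1, w, …, w ^ (p - 1)`, the minimal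
polynomial of `w` is `X ^ p - u` and `z ∈ F` is a primitive `p`-th root of unity, then
`w ↦ z w` extends to an automorphism of order dividing `p` with fixed field `F`. -/
theorem exists_deck_of_powerBasis {F E : Type*} [Field F] [Field E] [Algebra F E] {p : ℕ}
    (pb : PowerBasis F E) {w : E} {u : F} (hgen : pb.gen = w) (hdim : pb.dim = p)
    (hmin : minpoly F w = X ^ p - C u) {z : F} (hz : IsPrimitiveRoot z p) :
    ∃ γ : E ≃ₐ[F] E, γ w = algebraMap F E z * w ∧ γ ^ p = 1 ∧
      ∀ x, γ x = x → x ∈ (algebraMap F E).range := by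
  subst hgen
  have hwp : pb.gen ^ p = algebraMap F E u := by
    have := minpoly.aeval F pb.gen
    rw [hmin] at this
    simpa [sub_eq_zero] using this
  have hroot : aeval (algebraMap F E z * pb.gen) (minpoly F pb.gen) = 0 := by
    rw [hmin, map_sub, map_pow, aeval_X, aeval_C, mul_pow, ← map_pow, hz.pow_eq_one, map_one,
      one_mul, hwp, sub_self]
  let g0 : E →ₐ[F] E := pb.lift _ hroot
  have hg0 : g0 pb.gen = algebraMap F E z * pb.gen := pb.lift_gen _ hroot
  have : Module.Finite F E := pb.finite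
  have hbij : Function.Bijective g0 := Algebra.IsAlgebraic.algHom_bijective g0
  let γ : E ≃ₐ[F] E := AlgEquiv.ofBijective g0 hbij
  have hγ : γ pb.gen = algebraMap F E z * pb.gen := hg0
  have hpow : ∀ k : ℕ, (γ ^ k) pb.gen = algebraMap F E (z ^ k) * pb.gen := by
    intro k
    induction k with
    | zero => simp
    | succ k ih =>
      rw [pow_succ', AlgEquiv.mul_apply, ih, map_mul, AlgEquiv.commutes, hγ, pow_succ, map_mul]
      ring
  refine ⟨γ, hγ, ?_, ?_⟩
  · apply AlgEquiv.coe_toAlgHom_injective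
    apply pb.algHom_ext
    have := hpow p
    rw [hz.pow_eq_one, map_one, one_mul] at this
    simpa using this
  · intro x hx
    have hx1 : x = ∑ i : Fin pb.dim, pb.basis.repr x i • pb.gen ^ (i : ℕ) := by
      conv_lhs => rw [← pb.basis.sum_repr x]
      simp only [PowerBasis.coe_basis]
    have hx2 : γ x = ∑ i : Fin pb.dim, (pb.basis.repr x i * z ^ (i : ℕ)) • pb.gen ^ (i : ℕ) := by
      conv_lhs => rw [hx1]
      rw [map_sum]
      refine Finset.sum_congr rfl fun i _ => ?_
      rw [map_smul, map_pow, hγ, mul_pow, ← map_pow, mul_smul, Algebra.smul_def (z ^ (i : ℕ))]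
    have hc : ∀ i : Fin pb.dim, pb.basis.repr x i * z ^ (i : ℕ) = pb.basis.repr x i := by
      intro i
      have h3 : pb.basis.repr (γ x) i = pb.basis.repr x i * z ^ (i : ℕ) := by
        rw [hx2]
        have : (∑ i : Fin pb.dim, (pb.basis.repr x i * z ^ (i : ℕ)) • pb.gen ^ (i : ℕ))
            = ∑ i : Fin pb.dim, (pb.basis.repr x i * z ^ (i : ℕ)) • pb.basis i := by
          simp only [PowerBasis.coe_basis]
        rw [this, pb.basis.repr_sum_self]
      rw [← h3, hx]
    have hc0 : ∀ i : Fin pb.dim, (i : ℕ) ≠ 0 → pb.basis.repr x i = 0 := by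
      intro i hi
      have h1 : z ^ (i : ℕ) ≠ 1 :=
        hz.pow_ne_one_of_pos_of_lt hi (hdim ▸ i.2)
      have h2 := hc i
      by_contra h0
      exact h1 (mul_left_cancel₀ h0 (by rw [h2, mul_one]))
    have hpos : 0 < pb.dim := pb.dim_pos
    refine ⟨pb.basis.repr x ⟨0, hpos⟩, ?_⟩
    conv_rhs => rw [hx1]
    rw [Finset.sum_eq_single (⟨0, hpos⟩ : Fin pb.dim)]
    · rw [pow_zero, Algebra.smul_def, mul_one]
    · intro i _ hi
      rw [hc0 i (fun h => hi (Fin.ext h)), zero_smul]
    · intro h; exact absurd (Finset.mem_univ _) h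

variable {p L : ℕ} {U : FN L} {W : LaurentSeries Kbar}

/-- Leaf F4 with the conclusion of leaf F3 as a hypothesis. -/
theorem exists_gamma_of_powerBasis
    (h : ∃ pb : PowerBasis (FN L) (FYb L W), pb.gen = Wel L W ∧ pb.dim = p ∧
      minpoly (FN L) (Wel L W) = X ^ p - C U) {ζ : Kbar} (hζ : IsPrimitiveRoot ζ p) :
    ∃ γ : FYb L W ≃ₐ[FN L] FYb L W,
      γ (Wel L W) = algebraMap Kbar (FYb L W) ζ * Wel L W ∧ γ ^ p = 1 ∧
      ∀ z, γ z = z → z ∈ (algebraMap (FN L) (FYb L W)).range := by
  obtain ⟨pb, hgen, hdim, hmin⟩ := h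
  have hz : IsPrimitiveRoot (algebraMap Kbar (FN L) ζ) p :=
    hζ.map_of_injective (algebraMap Kbar (FN L)).injective
  obtain ⟨γ, h1, h2, h3⟩ := exists_deck_of_powerBasis pb hgen hdim hmin hz
  refine ⟨γ, ?_, h2, h3⟩
  rw [h1, ← IsScalarTower.algebraMap_apply Kbar (FN L) (FYb L W) ζ]

end Fermat.Agent.S44.X.Cover

end
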