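/-
S44, block X, sub-block COVER, node FIELD, leaf F4 (helper229): the deck transformation
`γ : W ↦ ζ W` of `FYb L W` over `FN L`, of order `p`, with fixed field `FN L`.
The whole proof is in `Field/DeckAux.lean`; here the power basis of leaf F3 is plugged in.
-/
import Fermat.Agent.S44.X.Cover.Field.DeckAux
import Fermat.Agent.S44.X.Cover.Field.Basis

set_option autoImplicit false

noncomputable section

namespace Fermat.Agent.S44.X.Cover

open ModularCurve AlgebraicCurve Fermat.Agent.S24 Fermat.Agent.GAL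
open Fermat.Agent.BAD.Bridge Polynomial

variable {I : Subgroup S44.GQ} {p L : ℕ} [NeZero L] {U : FN L} {W : LaurentSeries Kbar}

/-- F4 -/
theorem exists_gamma (hp : p.Prime) (R : RootData I p L U W) {ζ : Kbar}
    (hζ : IsPrimitiveRoot ζ p) :
    ∃ γ : FYb L W ≃ₐ[FN L] FYb L W,
      γ (Wel L W) = algebraMap Kbar (FYb L W) ζ * Wel L W ∧ γ ^ p = 1 ∧
      ∀ z, γ z = z → z ∈ (algebraMap (FN L) (FYb L W)).range :=
  exists_gamma_of_powerBasis (exists_powerBasis hp R) hζ

end Fermat.Agent.S44.X.Cover

end
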