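/-
S44, node X, block COVER, sub-block C-FIELD (sub-architect helper59).  DEFINITIONS.

Series-level language: `gS σ` is the coefficientwise action of `σ ∈ G_ℚ` on `ℚ̄((q))`.
* `cst c`      : the constant series;
* `FinLevel z` : `z` is fixed by an open subgroup of `G_ℚ`;
* `Fixed I z`  : `z` is fixed by the subgroup `I`.
-/
import Fermat.Agent.S44.X.Cover.Defs

set_option autoImplicit false

noncomputable section

namespace Fermat.Agent.S44.X.Cover.Field

open ModularCurve AlgebraicCurve Fermat.Agent.S24 Fermat.Agent.GAL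

/-- the constant series (a ring homomorphism) -/
abbrev cst : Kbar →+* LaurentSeries Kbar := algebraMap Kbar (LaurentSeries Kbar)

/-- `z` is fixed by an open subgroup of `G_ℚ`. -/
def FinLevel (z : LaurentSeries Kbar) : Prop :=
  ∃ L₁ : IntermediateField ℚ Kbar, FiniteDimensional ℚ L₁ ∧
    ∀ σ : S44.GQ, (∀ x ∈ L₁, σ x = x) → gS σ z = z

/-- `z` is fixed by `I`. -/
def Fixed (I : Subgroup S44.GQ) (z : LaurentSeries Kbar) : Prop := ∀ τ ∈ I, gS τ z = z

theorem gS_mul (σ τ : S44.GQ) (z : LaurentSeries Kbar) : gS (σ * τ) z = gS σ (gS τ z) := by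
  rw [coeffMap_coeffMap]
  exact coeffMap_congr (RingHom.ext fun _ => rfl) _

theorem gS_one (z : LaurentSeries Kbar) : gS 1 z = z := by
  show coeffMap ((1 : S44.GQ) : Kbar →+* Kbar) z = z
  rw [show ((1 : S44.GQ) : Kbar →+* Kbar) = RingHom.id Kbar from RingHom.ext fun _ => rfl,
    coeffMap_id]

theorem gS_cst (σ : S44.GQ) (c : Kbar) : gS σ (cst c) = cst (σ c) :=
  S18.Descent.coeffMap_algebraMap' _ c

theorem gS_coeff (σ : S44.GQ) (z : LaurentSeries Kbar) (k : ℤ) :
    (gS σ z).coeff k = σ (z.coeff k) := coeffMap_coeff _ z k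

theorem gS_injective (σ : S44.GQ) : Function.Injective (gS σ) :=
  S18.Descent.coeffMap_injective _ σ.injective

theorem gS_inv_gS (σ : S44.GQ) (z : LaurentSeries Kbar) : gS σ⁻¹ (gS σ z) = z := by
  rw [← gS_mul, inv_mul_cancel, gS_one]

theorem gS_gS_inv (σ : S44.GQ) (z : LaurentSeries Kbar) : gS σ (gS σ⁻¹ z) = z := by
  rw [← gS_mul, mul_inv_cancel, gS_one]

theorem coe_galF' (N : ℕ) (σ : S44.GQ) (x : FN N) :
    ((E.galF N σ x : FN N) : LaurentSeries Kbar) = gS σ (x : LaurentSeries Kbar) := rfl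

theorem coe_Wel (L : ℕ) (W : LaurentSeries Kbar) :
    ((Wel L W : FYb L W) : LaurentSeries Kbar) = W := rfl

theorem coe_algebraMap_Kbar_FYb (L : ℕ) (W : LaurentSeries Kbar) (c : Kbar) :
    ((algebraMap Kbar (FYb L W) c : FYb L W) : LaurentSeries Kbar) = cst c := rfl

theorem coe_algebraMap_Kbar_FN (L : ℕ) (c : Kbar) :
    ((algebraMap Kbar (FN L) c : FN L) : LaurentSeries Kbar) = cst c := rfl

end Fermat.Agent.S44.X.Cover.Field

end
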