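/-
S44, block X, sub-block COVER, node FIELD (architect helper194), leaf F11 (helper279, task 3264):
an element of `F_Y` whose base change lies in `F̄_X` lies in `F_X`.
-/
import Fermat.Agent.S44.X.Cover.Nodes
import Fermat.Agent.BAD.Bridge.Span

set_option autoImplicit false

noncomputable section

namespace Fermat.Agent.S44.X.Cover

open ModularCurve AlgebraicCurve Fermat.Agent.S24 Fermat.Agent.GAL
open Fermat.Agent.BAD.Bridge Polynomial

variable {K : Type} [Field K] [Algebra ℚ K] [Algebra K Kbar] {L : ℕ}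
  [NeZero L] {W : LaurentSeries Kbar}

/-- F11 (`Field/Desc.lean`) -/
theorem mem_range_of_bcY_mem (z : FY K L W)
    (h : bcY K L W z ∈ (algebraMap (FN L) (FYb L W)).range) :
    z ∈ (algebraMap (FK K L) (FY K L W)).range := by
  obtain ⟨f, hf⟩ := h
  have h1 : (f : LaurentSeries Kbar) = cK K (z : LaurentSeries K) := by
    rw [← coe_bcY, ← hf, coe_algebraMap_FYb]
  have halg : Algebra.IsAlgebraic ℚ Kbar := AlgebraicClosure.isAlgebraic ℚ
  have : Algebra.IsAlgebraic K Kbar := Algebra.IsAlgebraic.tower_top (K := ℚ) K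
  have h2 : cK K (z : LaurentSeries K) ∈ laurentBaseChange Kbar (modularFunctionFieldFull L) := by
    rw [← h1]
    exact f.2
  have h3 : (z : LaurentSeries K) ∈ laurentBaseChange K (modularFunctionFieldFull L) :=
    mem_laurentBaseChange_of_coeffMap_mem (L := K) (L' := Kbar) (modularFunctionFieldFull L) h2
  exact ⟨⟨z, h3⟩, Subtype.ext (coe_algebraMap_FY K L W ⟨z, h3⟩)⟩

end Fermat.Agent.S44.X.Cover

end
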