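/-
S44, block X, sub-block COVER, node FIELD (architect helper194), leaf F6 (task 3253):
a series fixed by `I` has coefficients in the fixed field `K`.
-/
import Fermat.Agent.S44.X.Cover.Defs

set_option autoImplicit false

noncomputable section

namespace Fermat.Agent.S44.X.Cover

open ModularCurve AlgebraicCurve Fermat.Agent.S24 Fermat.Agent.GAL
open Fermat.Agent.BAD.Bridge Polynomial

variable {K : Type} [Field K] [Algebra ℚ K] [Algebra K Kbar] {I : Subgroup S44.GQ}

/-- F6 (`Field/Fixed.lean`) -/
theorem exists_cK_eq (hfix : IsFix K I) (y : LaurentSeries Kbar) (hy : ∀ τ ∈ I, gS τ y = y) :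
    ∃ y₀ : LaurentSeries K, cK K y₀ = y := by
  have h1 : ∀ k : ℤ, ∃ c : K, algebraMap K Kbar c = y.coeff k := by
    intro k
    refine (hfix (y.coeff k)).1 fun τ hτ => ?_
    have h2 := congrArg (fun s : LaurentSeries Kbar => s.coeff k) (hy τ hτ)
    exact h2
  choose c hc using h1
  have hsupp : Function.support c ⊆ y.support := by
    intro k hk
    rw [HahnSeries.mem_support, ← hc k]
    exact fun h => hk ((map_eq_zero _).1 h)
  refine ⟨⟨c, y.isPWO_support.mono hsupp⟩, ?_⟩
  ext k
  rw [coeffMap_coeff]
  exact hc k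

end Fermat.Agent.S44.X.Cover

end
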