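/-
S44, block X, sub-block COVER, node FIELD, leaf F2 (architect helper194, proof helper276 as shadow).
`τ W = ξ W ^ m h` and the stability of `FYb L W` under `I`: both are consequences of
`Y3.gS_W`, `Y3.galComm` (helper44 / helper273).
-/
import Fermat.Agent.S44.X.Cover.Nodes
import Fermat.Agent.S44.X.Cover.Y3.Comm

set_option autoImplicit false

noncomputable section

namespace Fermat.Agent.S44.X.Cover

open ModularCurve AlgebraicCurve Fermat.Agent.S24 Fermat.Agent.GAL
open Fermat.Agent.BAD.Bridge Polynomial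

variable {I : Subgroup S44.GQ} {p L : ℕ} [NeZero L] {U : FN L} {W : LaurentSeries Kbar}

/-- F2a (`Field/GalW.lean`) -/
theorem gS_W (hp : p.Prime) (R : RootData I p L U W) {τ : S44.GQ} (hτ : τ ∈ I) {m : ℕ}
    (hm : ActsBy p τ m) :
    ∃ (ξ : Kbar) (h : FN L), ξ ^ p = 1 ∧
      gS τ W = algebraMap Kbar (LaurentSeries Kbar) ξ * W ^ m * (h : LaurentSeries Kbar) := by
  obtain ⟨h, hh⟩ := Y3.gS_W hp.pos R hτ hm
  exact ⟨1, h, one_pow p, by rw [map_one, one_mul]; exact hh⟩

/-- F2b (`Field/GalW.lean`) -/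
theorem gS_mem_FYb (hp : p.Prime) (R : RootData I p L U W) {τ : S44.GQ} (hτ : τ ∈ I)
    {z : LaurentSeries Kbar} (hz : z ∈ FYb L W) : gS τ z ∈ FYb L W := by
  obtain ⟨y, hy, -⟩ := Y3.galComm hp.pos R (one_pow p) AlgEquiv.refl
    (by rw [map_one, one_mul]; rfl) τ hτ ⟨z, hz⟩
  have hy' : (y : LaurentSeries Kbar) = gS τ z := hy
  rw [← hy']
  exact y.2

end Fermat.Agent.S44.X.Cover

end
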