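/-
S44, block X, sub-block COVER, node FIELD (architect helper194), leaf F10 (proof helper70):
descent to `FY K L W` of an automorphism of `FYb L W` which commutes with the action of `I`.
-/
import Fermat.Agent.S44.X.Cover.Nodes

set_option autoImplicit false
set_option linter.unusedSectionVars false

noncomputable section

namespace Fermat.Agent.S44.X.Cover

open ModularCurve AlgebraicCurve Fermat.Agent.S24 Fermat.Agent.GAL
open Fermat.Agent.BAD.Bridge Polynomial

variable {K : Type} [Field K] [Algebra ℚ K] [Algebra K Kbar] {I : Subgroup S44.GQ} {p L : ℕ}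
  [NeZero L] {U : FN L} {W : LaurentSeries Kbar}

/-- a series fixed by `I` has coefficients in `K` (private copy of leaf F6) -/
private theorem sigma_exists_cK_eq (hfix : IsFix K I) (y : LaurentSeries Kbar)
    (hy : ∀ τ ∈ I, gS τ y = y) : ∃ y₀ : LaurentSeries K, cK K y₀ = y := by
  have h1 : ∀ n, y.coeff n ∈ (algebraMap K Kbar).range := fun n => (hfix _).1 fun τ hτ => by
    have h2 := congrArg (fun z => HahnSeries.coeff z n) (hy τ hτ)
    simp only [coeffMap_coeff] at h2
    exact h2
  choose c hc using h1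
  refine ⟨⟨c, y.isPWO_support.mono fun n hn => ?_⟩, ?_⟩
  · intro h0
    apply hn
    have h3 : algebraMap K Kbar (c n) = 0 := by rw [hc n]; exact h0
    exact (map_eq_zero _).1 h3
  · ext n
    rw [coeffMap_coeff]
    exact hc n

/-- series with coefficients in `K` are fixed by `I` -/
private theorem sigma_gS_cK (hfix : IsFix K I) {τ : S44.GQ} (hτ : τ ∈ I) (z : LaurentSeries K) :
    gS τ (cK K z) = cK K z := by
  ext n
  rw [coeffMap_coeff, coeffMap_coeff]
  exact (hfix _).2 ⟨_, rfl⟩ τ hτ

private theorem sigma_exists_lift (hfix : IsFix K I) (g : FYb L W → FYb L W)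
    (hc : ∀ τ ∈ I, ∀ z z' : FYb L W, (z' : LaurentSeries Kbar) = gS τ z →
      ((g z' : FYb L W) : LaurentSeries Kbar) = gS τ (g z : FYb L W)) (z : FY K L W) :
    ∃ z₁ : FY K L W, bcY K L W z₁ = g (bcY K L W z) := by
  have h1 : ∀ τ ∈ I, gS τ ((g (bcY K L W z) : FYb L W) : LaurentSeries Kbar) =
      (g (bcY K L W z) : FYb L W) := by
    intro τ hτ
    exact (hc τ hτ (bcY K L W z) (bcY K L W z) (by rw [coe_bcY, sigma_gS_cK hfix hτ])).symm
  obtain ⟨y₀, hy₀⟩ := sigma_exists_cK_eq hfix _ h1
  have hmem : y₀ ∈ FY K L W := by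
    rw [mem_FY_iff, hy₀]
    exact (g (bcY K L W z)).2
  exact ⟨⟨y₀, hmem⟩, Subtype.ext (by rw [coe_bcY]; exact hy₀)⟩

/-- F10 (`Field/Sigma.lean`) -/
theorem exists_sigma (hfix : IsFix K I) (γ : FYb L W ≃ₐ[FN L] FYb L W)
    (hc : ∀ τ ∈ I, ∀ z z' : FYb L W, (z' : LaurentSeries Kbar) = gS τ z →
      ((γ z' : FYb L W) : LaurentSeries Kbar) = gS τ (γ z : FYb L W))
    (hc' : ∀ τ ∈ I, ∀ z z' : FYb L W, (z' : LaurentSeries Kbar) = gS τ z →
      ((γ.symm z' : FYb L W) : LaurentSeries Kbar) = gS τ (γ.symm z : FYb L W)) :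
    ∃ σ : FY K L W ≃ₐ[FK K L] FY K L W, ∀ z, bcY K L W (σ z) = γ (bcY K L W z) := by
  have hinj : Function.Injective (bcY K L W) := (bcY K L W).injective
  choose s hs using sigma_exists_lift hfix (fun z => γ z) hc
  choose s' hs' using sigma_exists_lift hfix (fun z => γ.symm z) hc'
  refine ⟨{ toFun := s, invFun := s', left_inv := ?_, right_inv := ?_, map_mul' := ?_,
            map_add' := ?_, commutes' := ?_ }, hs⟩
  · intro z
    apply hinj
    rw [hs', hs, AlgEquiv.symm_apply_apply]
  · intro z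
    apply hinj
    rw [hs, hs', AlgEquiv.apply_symm_apply]
  · intro a b
    apply hinj
    rw [hs, map_mul, map_mul, map_mul, hs, hs]
  · intro a b
    apply hinj
    rw [hs, map_add, map_add, map_add, hs, hs]
  · intro r
    apply hinj
    rw [hs, bcY_algebraMap, AlgEquiv.commutes]

end Fermat.Agent.S44.X.Cover

end
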