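/-
S44, block X, sub-block COVER, node FIELD, leaf F7 (helper183): Speiser's lemma for one vector
with finite orbit.  If the orbit of `x ∈ ℚ̄((q))` under a subgroup `I` of `G_ℚ` is finite then `x`
is a `ℚ̄`-linear combination of `I`-fixed vectors lying in the span of the orbit.
-/
import Fermat.Agent.S44.X.Cover.Defs

set_option autoImplicit false

noncomputable section

namespace Fermat.Agent.S44.X.Cover

open ModularCurve AlgebraicCurve Fermat.Agent.S24 Fermat.Agent.GAL
open Fermat.Agent.BAD.Bridge Polynomial

private theorem orbit_gS_smul (σ : S44.GQ) (a : Kbar) (y : LaurentSeries Kbar) :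
    gS σ (a • y) = (σ a) • gS σ y := by
  ext k
  simp

private theorem orbit_gS_mul (σ τ : S44.GQ) (y : LaurentSeries Kbar) :
    gS (σ * τ) y = gS σ (gS τ y) := by
  ext k
  simp

private theorem orbit_gS_one (y : LaurentSeries Kbar) : gS 1 y = y := by
  ext k
  simp

/-- Linear algebra: if finitely many functions `χ o : M → F` are linearly independent, then the
vectors `(χ o c)_o`, `c ∈ M`, span `ι → F`. -/
private theorem orbit_span_top {ι M F : Type*} [Fintype ι] [DecidableEq ι] [Field F]
    (χ : ι → M → F) (h : LinearIndependent F χ) :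
    Submodule.span F (Set.range fun c : M => fun o => χ o c) = ⊤ := by
  by_contra hne
  obtain ⟨f, hf, hle⟩ := Submodule.exists_le_ker_of_lt_top _ (lt_top_iff_ne_top.2 hne)
  apply hf
  have hb : ∀ o, f (fun j => if o = j then 1 else 0) = 0 := by
    rw [Fintype.linearIndependent_iff] at h
    apply h
    ext c
    have h1 := hle (Submodule.subset_span ⟨c, rfl⟩)
    rw [LinearMap.mem_ker, LinearMap.pi_apply_eq_sum_univ] at h1
    simpa [mul_comm] using h1
  refine LinearMap.ext fun v => ?_
  rw [LinearMap.pi_apply_eq_sum_univ]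
  simp [hb]

theorem mem_span_fixed (I : Subgroup S44.GQ) (x : LaurentSeries Kbar)
    (hfin : (Set.range fun τ : I => gS (τ : S44.GQ) x).Finite) :
    x ∈ Submodule.span Kbar {y : LaurentSeries Kbar | (∀ τ ∈ I, gS τ y = y) ∧
      y ∈ Submodule.span Kbar (Set.range fun τ : I => gS (τ : S44.GQ) x)} := by
  classical
  set O : Set (LaurentSeries Kbar) := Set.range fun τ : I => gS (τ : S44.GQ) x with hO
  have : Fintype O := hfin.fintype
  -- representatives
  have ht : ∀ o : O, ∃ τ : I, gS (τ : S44.GQ) x = o := fun o => o.2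
  choose t ht using ht
  -- the monoid of constants on which the representatives are canonical
  let KH : Submonoid Kbar :=
    { carrier := {c | ∀ σ τ : I, gS (σ : S44.GQ) x = gS (τ : S44.GQ) x →
        (σ : S44.GQ) c = (τ : S44.GQ) c}
      mul_mem' := fun {a b} ha hb σ τ h => by rw [map_mul, map_mul, ha σ τ h, hb σ τ h]
      one_mem' := fun σ τ _ => by rw [map_one, map_one] }
  have hcoeff : ∀ k : ℤ, x.coeff k ∈ KH := fun k σ τ h => by
    have := congrArg (fun y => HahnSeries.coeff y k) h
    simpa using this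
  let χ : O → KH →* Kbar := fun o =>
    (((t o : S44.GQ) : Kbar →+* Kbar) : Kbar →* Kbar).comp KH.subtype
  have hχ : ∀ o (c : KH), χ o c = (t o : S44.GQ) (c : Kbar) := fun o c => rfl
  have hχinj : Function.Injective χ := by
    intro o o' h
    apply Subtype.ext
    rw [← ht o, ← ht o']
    ext k
    have := DFunLike.congr_fun h ⟨x.coeff k, hcoeff k⟩
    simpa [hχ] using this
  have hli : LinearIndependent Kbar (fun o : O => (χ o : KH → Kbar)) :=
    (linearIndependent_monoidHom KH Kbar).comp χ hχinj
  have htop := orbit_span_top (fun o : O => (χ o : KH → Kbar)) hli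
  -- the evaluation map
  let Φ : (O → Kbar) →ₗ[Kbar] LaurentSeries Kbar :=
    Fintype.linearCombination Kbar (fun o : O => (o : LaurentSeries Kbar))
  have hΦ : ∀ v, Φ v = ∑ o : O, v o • (o : LaurentSeries Kbar) := fun v => rfl
  let o₀ : O := ⟨x, ⟨1, orbit_gS_one x⟩⟩
  have hx : x = Φ (Pi.single o₀ 1) := by
    rw [hΦ, Finset.sum_eq_single o₀]
    · simp [o₀]
    · intro b _ hb
      simp [Pi.single_eq_of_ne hb]
    · intro h
      exact absurd (Finset.mem_univ _) h
  have hmem : Φ (Pi.single o₀ 1) ∈ Submodule.map Φ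
      (Submodule.span Kbar (Set.range fun c : KH => fun o => χ o c)) := by
    rw [htop]
    exact Submodule.mem_map_of_mem Submodule.mem_top
  rw [Submodule.map_span] at hmem
  rw [hx]
  refine Submodule.span_mono ?_ hmem
  rintro _ ⟨_, ⟨c, rfl⟩, rfl⟩
  refine ⟨?_, ?_⟩
  · intro τ hτ
    -- the permutation of the orbit
    let π : O → O := fun o => ⟨gS τ o, by
      obtain ⟨σ, hσ⟩ := o.2
      exact ⟨⟨τ, hτ⟩ * σ, by rw [← hσ]; exact orbit_gS_mul _ _ _⟩⟩
    have hπinj : Function.Injective π := by
      intro o o' h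
      apply Subtype.ext
      exact (gS τ).injective (congrArg Subtype.val h)
    have hπ : Function.Bijective π := Finite.injective_iff_bijective.1 hπinj
    have h2 := hπ.sum_comp (fun o : O => (χ o c) • (o : LaurentSeries Kbar))
    rw [hΦ, map_sum]
    refine Eq.trans ?_ h2
    refine Finset.sum_congr rfl fun o _ => ?_
    rw [orbit_gS_smul]
    congr 1
    show τ (χ o c) = χ (π o) c
    rw [hχ, hχ]
    have := c.2 (⟨τ, hτ⟩ * t o) (t (π o)) (by
      rw [ht (π o)]
      show gS (τ * (t o : S44.GQ)) x = gS τ o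
      rw [orbit_gS_mul, ht o])
    exact this
  · rw [hΦ]
    exact Submodule.sum_mem _ fun o _ => Submodule.smul_mem _ _ (Submodule.subset_span o.2)

end Fermat.Agent.S44.X.Cover
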