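/-
S44, block X, sub-block COVER, node FIELD, leaf F8: the `I`-orbit of the normalised root `W` is
finite.
-/
import Fermat.Agent.S44.X.Cover.Nodes
import Fermat.Agent.BAD.Bridge.Root
import Fermat.Agent.BAD.Bridge.PowDesc
import Fermat.Agent.BAD.Descent

set_option autoImplicit false

noncomputable section

namespace Fermat.Agent.S44.X.Cover

open ModularCurve AlgebraicCurve Fermat.Agent.S24 Fermat.Agent.GAL
open Fermat.Agent.BAD.Bridge Polynomial

variable {K : Type} [Field K] [Algebra ℚ K] [Algebra K Kbar] {I : Subgroup S44.GQ} {p L : ℕ}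
  [NeZero L] {U : FN L} {W : LaurentSeries Kbar}

/-- F8 (`Field/OrbitW.lean`) -/
theorem finite_orbit_W (hp : p.Prime) (R : RootData I p L U W) :
    (Set.range fun τ : I => gS (τ : S44.GQ) W).Finite := by
  have hlc : ∀ τ : S44.GQ, (gS τ W).leadingCoeff = 1 := by
    intro τ
    rw [PowDesc_leadingCoeff_coeffMap _ (RingHom.injective _), R.nrm, map_one]
  refine Set.Finite.of_finite_image (f := fun x : LaurentSeries Kbar => x ^ p) ?_ ?_
  · have h := (BAD.Descent.finite_orbit L I U).image (fun v : FN L => (v : LaurentSeries Kbar))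
    refine h.subset ?_
    rintro _ ⟨_, ⟨τ, rfl⟩, rfl⟩
    refine ⟨E.galF L τ U, ⟨τ, τ.2, rfl⟩, ?_⟩
    show ((E.galF L τ U : FN L) : LaurentSeries Kbar) = (gS (τ : S44.GQ) W) ^ p
    rw [E.coe_galF, ← map_pow, R.pow]
  · rintro _ ⟨τ, rfl⟩ _ ⟨τ', rfl⟩ h
    exact normalized_root_unique p hp.ne_zero _ _ h (hlc τ) (hlc τ')

end Fermat.Agent.S44.X.Cover

end
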