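/-
S44, block X, sub-block COVER, node FIELD (architect helper194, proofs helper205): leaf F9, core.

`spanBcY_core`: the `ℚ̄`-span of `F_Y` is `F̄_Y`, from
* a power basis `1, W, …` of `F̄_Y / F̄_X`,
* the `I`-orbit of `W` lies in `F̄_Y`,
* `I`-fixed series have coefficients in `K`,
* `W` is a `ℚ̄`-combination of `I`-fixed elements of the span of its orbit.
-/
import Fermat.Agent.S44.X.Cover.Nodes
import Fermat.Agent.BAD.Bridge.Span

set_option autoImplicit false
set_option linter.unusedSectionVars false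

noncomputable section

namespace Fermat.Agent.S44.X.Cover

open ModularCurve AlgebraicCurve Fermat.Agent.S24 Fermat.Agent.GAL
open Fermat.Agent.BAD.Bridge Polynomial

variable {K : Type} [Field K] [Algebra ℚ K] [Algebra K Kbar] {I : Subgroup S44.GQ} {p L : ℕ}
  [NeZero L] {U : FN L} {W : LaurentSeries Kbar}

/-- the span of the image of `bcY` is a subalgebra -/
theorem spanBcY_eq_adjoin :
    Submodule.span Kbar (Set.range (bcY K L W)) =
      Subalgebra.toSubmodule (Algebra.adjoin Kbar (Set.range (bcY K L W))) := by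
  rw [Algebra.adjoin_eq_span]
  congr 1
  have h : Set.range (bcY K L W) =
      ((MonoidHom.mrange (bcY K L W : FY K L W →* FYb L W) : Submonoid (FYb L W)) :
        Set (FYb L W)) := by
    rw [MonoidHom.coe_mrange]
    rfl
  rw [h, Submonoid.closure_eq]

/-- the scalar multiplication of `F̄_Y` -/
theorem spanBcY_coe_smul (c : Kbar) (z : FYb L W) :
    ((c • z : FYb L W) : LaurentSeries Kbar) = c • (z : LaurentSeries Kbar) := by
  rw [span_smul_eq, Algebra.smul_def, (FYb L W).coe_mul]
  rfl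

/-- transport of a span membership from `ℚ̄((q))` to `F̄_Y` -/
theorem spanBcY_lift {s : Set (LaurentSeries Kbar)}
    (hs : ∀ y ∈ s, ∃ y' : FY K L W, cK K (y' : LaurentSeries K) = y) {x : LaurentSeries Kbar}
    (hx : x ∈ Submodule.span Kbar s) :
    ∃ z ∈ Submodule.span Kbar (Set.range (bcY K L W)), ((z : FYb L W) : LaurentSeries Kbar) = x := by
  induction hx using Submodule.span_induction with
  | mem y hy =>
      obtain ⟨y', rfl⟩ := hs y hy
      exact ⟨bcY K L W y', Submodule.subset_span ⟨y', rfl⟩, coe_bcY K L W y'⟩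
  | zero => exact ⟨0, zero_mem _, (FYb L W).coe_zero⟩
  | add a b _ _ ha hb =>
      obtain ⟨za, hza, rfl⟩ := ha
      obtain ⟨zb, hzb, rfl⟩ := hb
      exact ⟨za + zb, add_mem hza hzb, (FYb L W).coe_add za zb⟩
  | smul c a _ ha =>
      obtain ⟨za, hza, rfl⟩ := ha
      exact ⟨c • za, Submodule.smul_mem _ _ hza, spanBcY_coe_smul c za⟩

/-- a `ℚ̄`-combination of elements of `F̄_Y` lies in `F̄_Y` -/
theorem spanBcY_mem_FYb {s : Set (LaurentSeries Kbar)} (hs : ∀ y ∈ s, y ∈ FYb L W)
    {x : LaurentSeries Kbar} (hx : x ∈ Submodule.span Kbar s) : x ∈ FYb L W := by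
  induction hx using Submodule.span_induction with
  | mem y hy => exact hs y hy
  | zero => exact zero_mem _
  | add a b _ _ ha hb => exact add_mem ha hb
  | smul c a _ ha =>
      rw [span_smul_eq]
      exact mul_mem ((FYb L W).algebraMap_mem c) ha

theorem spanBcY_isAlgebraic (K : Type) [Field K] [Algebra ℚ K] [Algebra K Kbar] :
    Algebra.IsAlgebraic K Kbar := by
  have h1 : IsScalarTower ℚ K Kbar := IsScalarTower.of_algebraMap_eq' (RingHom.ext_rat _ _)
  have h2 : Algebra.IsAlgebraic ℚ Kbar := AlgebraicClosure.isAlgebraic ℚ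
  exact Algebra.IsAlgebraic.tower_top (K := ℚ) K

theorem spanBcY_core
    (hstab : ∀ τ ∈ I, gS τ W ∈ FYb L W)
    (pb : PowerBasis (FN L) (FYb L W)) (hpb : pb.gen = Wel L W)
    (hcK : ∀ y : LaurentSeries Kbar, (∀ τ ∈ I, gS τ y = y) → ∃ y₀ : LaurentSeries K, cK K y₀ = y)
    (hW : W ∈ Submodule.span Kbar {y : LaurentSeries Kbar | (∀ τ ∈ I, gS τ y = y) ∧
      y ∈ Submodule.span Kbar (Set.range fun τ : I => gS (τ : S44.GQ) W)}) :
    Submodule.span Kbar (Set.range (bcY K L W)) = ⊤ := by
  have halg : Algebra.IsAlgebraic K Kbar := spanBcY_isAlgebraic K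
  -- (b) the elements of `FN L`
  have hb : ∀ f : FN L, algebraMap (FN L) (FYb L W) f ∈
      Submodule.span Kbar (Set.range (bcY K L W)) := by
    intro f
    have h1 := mem_span_of_mem_laurentBaseChange (L := K) (L' := Kbar)
      (modularFunctionFieldFull L) f.2
    obtain ⟨z, hz, hzf⟩ := spanBcY_lift (K := K) (L := L) (W := W) (fun y hy => by
      obtain ⟨y₀, hy₀, rfl⟩ := hy
      exact ⟨⟨y₀, FK_le_FY K L W hy₀⟩, rfl⟩) h1
    have : algebraMap (FN L) (FYb L W) f = z := by
      apply Subtype.ext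
      rw [coe_algebraMap_FYb, hzf]
    rw [this]
    exact hz
  -- (c) the element `W`
  have hc : Wel L W ∈ Submodule.span Kbar (Set.range (bcY K L W)) := by
    obtain ⟨z, hz, hzW⟩ := spanBcY_lift (K := K) (L := L) (W := W) (fun y hy => by
      obtain ⟨hyfix, hyspan⟩ := hy
      have hyF : y ∈ FYb L W := spanBcY_mem_FYb (by
        rintro _ ⟨τ, rfl⟩
        exact hstab τ τ.2) hyspan
      obtain ⟨y₀, rfl⟩ := hcK y hyfix
      exact ⟨⟨y₀, (mem_FY_iff K L W y₀).2 hyF⟩, rfl⟩) hW
    have : Wel L W = z := Subtype.ext hzW.symm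
    rw [this]
    exact hz
  -- (d) conclusion
  rw [Submodule.eq_top_iff']
  intro z
  rw [spanBcY_eq_adjoin] at hb hc ⊢
  rw [Subalgebra.mem_toSubmodule] at hc ⊢
  rw [← pb.basis.sum_repr z]
  refine sum_mem fun i _ => ?_
  rw [Algebra.smul_def, pb.basis_eq_pow, hpb]
  exact mul_mem ((Subalgebra.mem_toSubmodule _).1 (hb _)) (pow_mem hc _)

end Fermat.Agent.S44.X.Cover

end
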