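/-
S44, block X, sub-block COVER, node FIELD (architect helper194, proofs helper205): leaf F9.
The `ℚ̄`-span of `F_Y` is `F̄_Y` (core in `Field/SpanBcYCore.lean`).
-/
import Fermat.Agent.S44.X.Cover.Field.SpanBcYCore
import Fermat.Agent.S44.X.Cover.Field.GalW
import Fermat.Agent.S44.X.Cover.Field.Basis
import Fermat.Agent.S44.X.Cover.Field.Fixed
import Fermat.Agent.S44.X.Cover.Field.Orbit
import Fermat.Agent.S44.X.Cover.Field.OrbitW

set_option autoImplicit false

noncomputable section

namespace Fermat.Agent.S44.X.Cover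

open ModularCurve AlgebraicCurve Fermat.Agent.S24 Fermat.Agent.GAL
open Fermat.Agent.BAD.Bridge Polynomial

variable {K : Type} [Field K] [Algebra ℚ K] [Algebra K Kbar] {I : Subgroup S44.GQ} {p L : ℕ}
  [NeZero L] {U : FN L} {W : LaurentSeries Kbar}

/-- F9 (`Field/Span.lean`) -/
theorem span_bcY (hp : p.Prime) (hfix : IsFix K I) (R : RootData I p L U W) :
    Submodule.span Kbar (Set.range (bcY K L W)) = ⊤ := by
  obtain ⟨pb, hpb, -, -⟩ := exists_powerBasis hp R
  exact spanBcY_core (fun τ hτ => gS_mem_FYb hp R hτ (W_mem_FYb L W)) pb hpb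
    (exists_cK_eq hfix) (mem_span_fixed I W (finite_orbit_W hp R))

end Fermat.Agent.S44.X.Cover

end
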