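/-
S44, block X, sub-block COVER, node FIELD (owner helper194): assembly `nodeField : NodeField`.
-/
import Fermat.Agent.S44.X.Cover.Field.GalW
import Fermat.Agent.S44.X.Cover.Field.Deck
import Fermat.Agent.S44.X.Cover.Field.Comm
import Fermat.Agent.S44.X.Cover.Field.Span
import Fermat.Agent.S44.X.Cover.Field.Sigma
import Fermat.Agent.S44.X.Cover.Field.Desc

set_option autoImplicit false

noncomputable section

namespace Fermat.Agent.S44.X.Cover

open ModularCurve AlgebraicCurve Fermat.Agent.S24 Fermat.Agent.GAL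
open Fermat.Agent.BAD.Bridge Polynomial

section

variable {K : Type} [Field K] [Algebra ℚ K] [Algebra K Kbar] {L : ℕ} {W : LaurentSeries Kbar}

theorem main_bcY_injective : Function.Injective (bcY K L W) := (bcY K L W).injective

theorem main_gamma_algebraMap_Kbar (γ : FYb L W ≃ₐ[FN L] FYb L W) (c : Kbar) :
    γ (algebraMap Kbar (FYb L W) c) = algebraMap Kbar (FYb L W) c := by
  rw [IsScalarTower.algebraMap_apply Kbar (FN L) (FYb L W), AlgEquiv.commutes]

theorem main_gamma_symm_Wel {ζ : Kbar} (hζ0 : ζ ≠ 0) (γ : FYb L W ≃ₐ[FN L] FYb L W)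
    (hγ : γ (Wel L W) = algebraMap Kbar (FYb L W) ζ * Wel L W) :
    γ.symm (Wel L W) = algebraMap Kbar (FYb L W) ζ⁻¹ * Wel L W := by
  rw [AlgEquiv.symm_apply_eq, map_mul, main_gamma_algebraMap_Kbar, hγ, ← mul_assoc, ← map_mul,
    inv_mul_cancel₀ hζ0, map_one, one_mul]

end

/-- **Node Field.** -/
theorem nodeField : NodeField := by
  intro K _ _ _ I p L _ hp hfix U W R ζ hζ
  refine ⟨fun τ hτ z hz => gS_mem_FYb hp R hτ hz, span_bcY hp hfix R, ?_⟩
  obtain ⟨γ, hγ, hγp, hγfix⟩ := exists_gamma hp R hζ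
  have hζ0 : ζ ≠ 0 := hζ.ne_zero hp.ne_zero
  have hc := fun τ (hτ : τ ∈ I) z z' h => gamma_comm hp R hζ.pow_eq_one γ hγ hτ z z' h
  have hc' := fun τ (hτ : τ ∈ I) z z' h => gamma_comm hp R
    (by rw [inv_pow, hζ.pow_eq_one, inv_one]) γ.symm (main_gamma_symm_Wel hζ0 γ hγ) hτ z z' h
  obtain ⟨σ, hσ⟩ := exists_sigma hfix γ hc (by simpa using hc')
  have hpow : ∀ (n : ℕ) (z : FY K L W), bcY K L W ((σ ^ n) z) = (γ ^ n) (bcY K L W z) := by
    intro n
    induction n with
    | zero => intro z; simp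
    | succ n ih =>
      intro z
      rw [pow_succ, pow_succ, AlgEquiv.mul_apply, AlgEquiv.mul_apply, ih, hσ]
  refine ⟨σ, γ, ⟨hγ, hσ⟩, ?_, ?_, ?_, hγfix, hc⟩
  · apply AlgEquiv.ext
    intro z
    apply main_bcY_injective
    rw [hpow, hγp]
    rfl
  · intro h1
    have hfixall : ∀ z : FYb L W, γ z = z := by
      intro z
      have hz : z ∈ Submodule.span Kbar (Set.range (bcY K L W)) := by
        rw [span_bcY hp hfix R]; trivial
      induction hz using Submodule.span_induction with
      | mem x hx =>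
        obtain ⟨y, rfl⟩ := hx
        rw [← hσ, h1]; rfl
      | zero => exact map_zero _
      | add x y _ _ hx hy => rw [map_add, hx, hy]
      | smul a x _ hx => rw [Algebra.smul_def, map_mul, main_gamma_algebraMap_Kbar, hx]
    have hW := hfixall (Wel L W)
    rw [hγ] at hW
    have hW0 : Wel L W ≠ 0 := by
      intro h0
      apply R.notpow
      refine ⟨0, ?_⟩
      apply Subtype.ext
      have h2 : W = 0 := congrArg Subtype.val h0
      rw [← R.pow, h2, zero_pow hp.ne_zero, zero_pow hp.ne_zero]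
      rfl
    have h3 : algebraMap Kbar (FYb L W) ζ = 1 := mul_right_cancel₀ hW0 (by rw [hW, one_mul])
    have h4 : ζ = 1 := (algebraMap Kbar (FYb L W)).injective (by rw [h3, map_one])
    exact hζ.ne_one hp.one_lt h4
  · intro z hz
    apply mem_range_of_bcY_mem
    apply hγfix
    rw [← hσ, hz]

end Fermat.Agent.S44.X.Cover

end
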