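/-
S44, node X, block COVER, sub-block C-FIELD (sub-architect helper59).

Series-level lemmas: leading coefficients, uniqueness of normalised roots, roots of unity are
constants, the cyclotomic exponent.
-/
import Mathlib
import Fermat.Agent.S36.Desc.FixedRep
import Fermat.Agent.S44.X.Cover.Field.Defs

set_option autoImplicit false

noncomputable section

namespace Fermat.Agent.S44.X.Cover.Field

open ModularCurve AlgebraicCurve Fermat.Agent.S24 Fermat.Agent.GAL

theorem leadingCoeff_gS (σ : S44.GQ) (z : LaurentSeries Kbar) :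
    (gS σ z).leadingCoeff = σ z.leadingCoeff :=
  S36.Desc.leadingCoeff_coeffMap _ σ.injective z

theorem leadingCoeff_cst (c : Kbar) : (cst c).leadingCoeff = c := by
  rw [algebraMap_laurentSeries_eq_single, HahnSeries.leadingCoeff_of_single]

theorem leadingCoeff_pow (z : LaurentSeries Kbar) (n : ℕ) :
    (z ^ n).leadingCoeff = z.leadingCoeff ^ n := by
  induction n with
  | zero => simp
  | succ n ih => rw [pow_succ, HahnSeries.leadingCoeff_mul, ih, pow_succ]

theorem leadingCoeff_inv (z : LaurentSeries Kbar) : (z⁻¹).leadingCoeff = z.leadingCoeff⁻¹ := by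
  rcases eq_or_ne z 0 with rfl | hz
  · simp
  have h := HahnSeries.leadingCoeff_mul z z⁻¹
  rw [mul_inv_cancel₀ hz, HahnSeries.leadingCoeff_one] at h
  exact eq_inv_of_mul_eq_one_right h.symm

theorem leadingCoeff_ne_zero' {z : LaurentSeries Kbar} (hz : z ≠ 0) : z.leadingCoeff ≠ 0 :=
  HahnSeries.leadingCoeff_ne_zero.2 hz

/-- an `n`-th root of unity of `ℚ̄((q))` is a constant -/
theorem exists_cst_of_pow_eq_one {n : ℕ} (hn : 0 < n) {z : LaurentSeries Kbar} (hz : z ^ n = 1) :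
    ∃ c : Kbar, cst c = z := by
  have hint : IsIntegral Kbar z :=
    ⟨Polynomial.X ^ n - Polynomial.C 1, Polynomial.monic_X_pow_sub_C 1 hn.ne', by simp [hz]⟩
  have hdeg := IsAlgClosed.degree_eq_one_of_irreducible Kbar (minpoly.irreducible hint)
  exact minpoly.mem_range_of_degree_eq_one Kbar z hdeg

/-- two `n`-th roots of the same series differ by a constant root of unity -/
theorem exists_cst_of_pow_eq {n : ℕ} (hn : 0 < n) {y z : LaurentSeries Kbar} (hz : z ≠ 0)
    (h : y ^ n = z ^ n) : ∃ c : Kbar, c ^ n = 1 ∧ y = cst c * z := by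
  have h1 : (y / z) ^ n = 1 := by rw [div_pow, h, div_self (pow_ne_zero _ hz)]
  obtain ⟨c, hc⟩ := exists_cst_of_pow_eq_one hn h1
  refine ⟨c, ?_, ?_⟩
  · have h2 : cst (c ^ n) = cst 1 := by rw [map_pow, hc, h1, map_one]
    exact (algebraMap Kbar (LaurentSeries Kbar)).injective h2
  · rw [hc, div_mul_cancel₀ _ hz]

/-- normalised `n`-th roots are unique -/
theorem eq_of_pow_eq_of_lc {n : ℕ} (hn : 0 < n) {y z : LaurentSeries Kbar} (h : y ^ n = z ^ n)
    (hy : y.leadingCoeff = 1) (hz : z.leadingCoeff = 1) : y = z := by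
  have hz0 : z ≠ 0 := by
    rintro rfl
    rw [HahnSeries.leadingCoeff_zero] at hz
    exact zero_ne_one hz
  obtain ⟨c, -, hc⟩ := exists_cst_of_pow_eq hn hz0 h
  have h1 : c = 1 := by
    have := congrArg HahnSeries.leadingCoeff hc
    rw [HahnSeries.leadingCoeff_mul, leadingCoeff_cst, hy, hz, mul_one] at this
    exact this.symm
  rw [hc, h1, map_one, one_mul]

/-- the cyclotomic exponent -/
theorem exists_cyc_exp (p : ℕ) (hp : p ≠ 0) (τ : S44.GQ) :
    ∃ m : ℕ, ∀ ζ : Kbar, ζ ^ p = 1 → τ ζ = ζ ^ m := by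
  have : NeZero p := ⟨hp⟩
  have : NeZero (p : Kbar) := ⟨Nat.cast_ne_zero.2 hp⟩
  obtain ⟨ζ₀, hζ₀⟩ := HasEnoughRootsOfUnity.exists_primitiveRoot Kbar p
  have h1 : (τ ζ₀) ^ p = 1 := by rw [← map_pow, hζ₀.pow_eq_one, map_one]
  obtain ⟨m, -, hm⟩ := hζ₀.eq_pow_of_pow_eq_one h1
  refine ⟨m, fun ζ hζ => ?_⟩
  obtain ⟨k, -, rfl⟩ := hζ₀.eq_pow_of_pow_eq_one hζ
  rw [map_pow, ← hm, ← pow_mul, ← pow_mul, mul_comm]

end Fermat.Agent.S44.X.Cover.Field

end
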